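import Fermat.Agent.LT.H129.HeckeA0
import Fermat.Agent.LT.H129.Cartan

/-!
# Row LT, helper972: GELFAND'S TRICK at a finite place — Spec-independent core

OFF-MAIN.  On `LT/H556/A0.lean` (helper556, sha256 66d3374a) and the library `LT/H129/*` of
helper129 (origin/helper129@6c248c692) ONLY: no tower Spec is imported, so this file does not
move when a tower Spec is re-based.  Same proofs as `LT/T2/H972/CommConvHecke.lean` (frozen
bytes of registry row 1006), in the namespace `Fermat.Agent.LT.H972` (do not open the two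
namespaces together).

MAIN RESULT `conv_hecke_comm972`: for a measure `μ` on `GL₂(𝔸_K)` (Borel) which is left and right
invariant and finite on compact sets, a Hecke coset system `H` at `v`, a continuous `φ` which is
right invariant under `GL₂(𝒪_v)` and a continuous compactly supported `f` which is bi-invariant
under `GL₂(𝒪_v)`:
`∫ (∑_{h ∈ H} φ (x y h)) f(y) dμ(y) = ∑_{h ∈ H} ∫ φ (x h y) f(y) dμ(y)`,
i.e. `R(f) ∘ T_H = T_H ∘ R(f)`.  No level, no cuspidality, no condition at the other places.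

Tools: `tr972` (transposition of `GL₂(F)`), `tau_inv972` (bi-`GL₂(𝒪_v)`-invariant functions are
invariant under the transposition at `v`; Cartan decomposition `cartan129`), `exists_sym972`
(every coset system can be moved to a SYMMETRIC one), `sym_sum972`
(`∑_{h ∈ S} f (y h⁻¹) = ∑_{h ∈ S} f (h⁻¹ y)` for a symmetric system), `biInv_leftSum972`,
`isHeckeCosetSystem_left972`, `isHeckeCosetSystem_right972`, `valued_det_maxCpt972`,
`comm_local_triv972`, `conv_rightInv972` (`R(f) φ` is right invariant under `GL₂(𝒪_v)`).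
-/

set_option autoImplicit false

open IsDedekindDomain NumberField MeasureTheory
open Fermat.Agent.LT.H556.A0
open Fermat.Agent.LT.H129

noncomputable section

namespace Fermat.Agent.LT.H972

/-! ## 1. The transposition of `GL₂(F)` -/

section Local

variable {F : Type*} [Field F]

/-- The transposition of `GL₂(F)`. -/
def tr972 (g : GL (Fin 2) F) : GL (Fin 2) F where
  val := (g : Matrix (Fin 2) (Fin 2) F).transpose
  inv := ((g⁻¹ : GL (Fin 2) F) : Matrix (Fin 2) (Fin 2) F).transpose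
  val_inv := by
    rw [← Matrix.transpose_mul, ← Matrix.GeneralLinearGroup.coe_mul, inv_mul_cancel]
    simp
  inv_val := by
    rw [← Matrix.transpose_mul, ← Matrix.GeneralLinearGroup.coe_mul, mul_inv_cancel]
    simp

theorem coe_tr972 (g : GL (Fin 2) F) :
    ((tr972 g : GL (Fin 2) F) : Matrix (Fin 2) (Fin 2) F)
      = (g : Matrix (Fin 2) (Fin 2) F).transpose := rfl

theorem tr972_mul (a b : GL (Fin 2) F) : tr972 (a * b) = tr972 b * tr972 a := by
  apply Units.ext
  simp only [coe_tr972, Matrix.transpose_mul, Units.val_mul]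

theorem tr972_one : tr972 (1 : GL (Fin 2) F) = 1 := by
  apply Units.ext
  simp [coe_tr972]

theorem tr972_inv (a : GL (Fin 2) F) : tr972 a⁻¹ = (tr972 a)⁻¹ := by
  rw [eq_inv_iff_mul_eq_one, ← tr972_mul, mul_inv_cancel, tr972_one]

theorem tr972_tr972 (a : GL (Fin 2) F) : tr972 (tr972 a) = a := by
  apply Units.ext
  simp [coe_tr972]

theorem isInt129_tr972 {O : ValuationSubring F} {g : GL (Fin 2) F} (hg : IsInt129 O g) :
    IsInt129 O (tr972 g) := fun i j => hg j i

theorem isMaxCpt129_tr972 {O : ValuationSubring F} {g : GL (Fin 2) F} (hg : IsMaxCpt129 O g) :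
    IsMaxCpt129 O (tr972 g) := by
  refine ⟨isInt129_tr972 hg.1, ?_⟩
  rw [← tr972_inv]
  exact isInt129_tr972 hg.2

theorem tr972_diag129 (x y : F) (hx : x ≠ 0) (hy : y ≠ 0) :
    tr972 (diag129 x y hx hy) = diag129 x y hx hy := by
  apply Units.ext
  rw [coe_tr972]
  simp only [diag129, coe_mkGL129]
  ext i j
  fin_cases i <;> fin_cases j <;> simp

end Local

/-! ## 2. Elements of `GL₂(𝔸_K)` supported at `v`, bi-invariant functions -/

section Adelic

variable {K : Type} [Field K] [NumberField K] {v : HeightOneSpectrum (𝓞 K)}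

/-- An element supported at `v` commutes with an element which is trivial at `v`. -/
theorem comm_local_triv972 {a b : G K} (ha : IsLocalAtFin v a) (hb : TrivAtFin v b) :
    a * b = b * a := by
  rw [isLocalAtFin_iff129] at ha
  rw [trivAtFin_iff129] at hb
  apply G_ext129
  · intro w
    rw [map_mul, map_mul, ha.1 w, one_mul, mul_one]
  · intro v'
    rw [map_mul, map_mul]
    by_cases h : v' = v
    · subst h
      rw [hb, one_mul, mul_one]
    · rw [ha.2 v' h, one_mul, mul_one]

/-- `y = loc(y_v) · y'` with `y'` trivial at `v`. -/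
theorem trivAtFin_quot972 (y : G K) :
    TrivAtFin v ((locFin129 v (finCompHom129 v y))⁻¹ * y) := by
  rw [trivAtFin_iff129, map_mul, map_inv, finCompHom129_locFin129, inv_mul_cancel]

theorem isIntegralAt_mul972 {a b : G K} (ha : IsIntegralAt v a) (hb : IsIntegralAt v b) :
    IsIntegralAt v (a * b) := by
  rw [← isInt129_finCompHom_iff] at *
  rw [map_mul]
  exact isInt129_mul ha hb

theorem isLocalMaxCptAt_loc972 {k : GL (Fin 2) (v.adicCompletion K)}
    (hk : IsMaxCpt129 (v.adicCompletionIntegers K) k) :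
    IsLocalMaxCptAt129 v (locFin129 v k) := by
  refine ⟨isLocalAtFin_locFin129 v k, ?_, ?_⟩
  · rw [← isInt129_finCompHom_iff, finCompHom129_locFin129]
    exact hk.1
  · rw [← map_inv, ← isInt129_finCompHom_iff, finCompHom129_locFin129]
    exact hk.2

theorem isLocalMaxCptAt_inv972 {u : G K} (hu : IsLocalMaxCptAt129 v u) :
    IsLocalMaxCptAt129 v u⁻¹ :=
  ⟨isLocalAtFin_inv129 hu.1, hu.2.2, by rw [inv_inv]; exact hu.2.1⟩

theorem isLocalMaxCptAt_mul972 {u u' : G K} (hu : IsLocalMaxCptAt129 v u)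
    (hu' : IsLocalMaxCptAt129 v u') : IsLocalMaxCptAt129 v (u * u') :=
  ⟨isLocalAtFin_mul129 hu.1 hu'.1, isIntegralAt_mul972 hu.2.1 hu'.2.1, by
    rw [mul_inv_rev]; exact isIntegralAt_mul972 hu'.2.2 hu.2.2⟩

theorem finComp_mul972 (a b : G K) : finComp v (a * b) = finComp v a * finComp v b := by
  rw [← coe_finCompHom129, ← coe_finCompHom129, ← coe_finCompHom129, map_mul]
  rfl

/-- The determinant of an element of `GL₂(𝒪_v)` is a unit. -/
theorem valued_det_maxCpt972 {u : G K} (hu : IsLocalMaxCptAt129 v u) :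
    Valued.v (finComp v u).det = 1 := by
  have h1 : Valued.v (finComp v u).det ≤ 1 := by
    have := det_mem_of_isInt129 ((isInt129_finCompHom_iff v u).mpr hu.2.1)
    exact (HeightOneSpectrum.mem_adicCompletionIntegers (𝓞 K) K v).mp this
  have h2 : Valued.v (finComp v u⁻¹).det ≤ 1 := by
    have := det_mem_of_isInt129 ((isInt129_finCompHom_iff v u⁻¹).mpr hu.2.2)
    exact (HeightOneSpectrum.mem_adicCompletionIntegers (𝓞 K) K v).mp this
  have h3 : Valued.v (finComp v u).det * Valued.v (finComp v u⁻¹).det = 1 := by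
    rw [← map_mul, ← Matrix.det_mul, ← finComp_mul972, mul_inv_cancel]
    have : finComp v (1 : G K) = 1 := by
      rw [← coe_finCompHom129, map_one]
      rfl
    rw [this, Matrix.det_one, map_one]
  refine le_antisymm h1 ?_
  calc (1 : WithZero (Multiplicative ℤ))
      = Valued.v (finComp v u).det * Valued.v (finComp v u⁻¹).det := h3.symm
    _ ≤ Valued.v (finComp v u).det := mul_le_of_le_one_right' h2

/-- Bi-invariance under `GL₂(𝒪_v)`. -/
def BiInv972 (v : HeightOneSpectrum (𝓞 K)) (Φ : G K → ℂ) : Prop :=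
  (∀ u : G K, IsLocalMaxCptAt129 v u → ∀ g : G K, Φ (g * u) = Φ g) ∧
    ∀ u : G K, IsLocalMaxCptAt129 v u → ∀ g : G K, Φ (u * g) = Φ g

/-- **Gelfand's trick**: a function which is bi-invariant under `GL₂(𝒪_v)` is invariant under the
transposition of the component at `v` (Cartan decomposition). -/
theorem tau_inv972 {Φ : G K → ℂ} (hΦ : BiInv972 v Φ) (x : GL (Fin 2) (v.adicCompletion K))
    {y' : G K} (hy' : TrivAtFin v y') :
    Φ (locFin129 v (tr972 x) * y') = Φ (locFin129 v x * y') := by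
  obtain ⟨k₁, k₂, a, b, ha, hb, hk₁, hk₂, -, hx⟩ := cartan129 (v.adicCompletionIntegers K) x
  have key : ∀ (u₁ u₂ d : GL (Fin 2) (v.adicCompletion K)),
      IsMaxCpt129 (v.adicCompletionIntegers K) u₁ →
      IsMaxCpt129 (v.adicCompletionIntegers K) u₂ →
      Φ (locFin129 v (u₁ * d * u₂) * y') = Φ (locFin129 v d * y') := by
    intro u₁ u₂ d h₁ h₂
    rw [map_mul, map_mul, mul_assoc, mul_assoc, hΦ.2 _ (isLocalMaxCptAt_loc972 h₁),
      comm_local_triv972 (isLocalAtFin_locFin129 v u₂) hy', ← mul_assoc,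
      hΦ.1 _ (isLocalMaxCptAt_loc972 h₂)]
  rw [hx, tr972_mul, tr972_mul, tr972_diag129, ← mul_assoc,
    key _ _ _ (isMaxCpt129_tr972 hk₂) (isMaxCpt129_tr972 hk₁), key _ _ _ hk₁ hk₂]

/-! ## 3. Translates of Hecke coset systems -/

open scoped Classical in
/-- The left translate of a Hecke coset system by an element of `GL₂(𝒪_v)`. -/
theorem isHeckeCosetSystem_left972 {H : Finset (G K)} (hH : IsHeckeCosetSystem v H) {u : G K}
    (hu : IsLocalMaxCptAt129 v u) : IsHeckeCosetSystem v (H.image fun h => u * h) := by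
  obtain ⟨hcard, hmem, hne⟩ := hH
  refine ⟨?_, ?_, ?_⟩
  · rw [Finset.card_image_of_injective _ (mul_right_injective u), hcard]
  · intro g hg
    obtain ⟨h, hh, rfl⟩ := Finset.mem_image.mp hg
    obtain ⟨h1, h2, h3⟩ := hmem h hh
    refine ⟨isLocalAtFin_mul129 hu.1 h1, isIntegralAt_mul972 hu.2.1 h2, ?_⟩
    rw [finComp_mul972, Matrix.det_mul, map_mul, valued_det_maxCpt972 hu, one_mul, h3]
  · intro g hg g' hg' hgg'
    obtain ⟨h, hh, rfl⟩ := Finset.mem_image.mp hg
    obtain ⟨h', hh', rfl⟩ := Finset.mem_image.mp hg'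
    have e : (u * h)⁻¹ * (u * h') = h⁻¹ * h' := by group
    rw [e]
    exact hne h hh h' hh' (fun e' => hgg' (by rw [e']))

open scoped Classical in
/-- A right translate of a Hecke coset system by elements of `GL₂(𝒪_v)`. -/
theorem isHeckeCosetSystem_right972 {H : Finset (G K)} (hH : IsHeckeCosetSystem v H)
    (u : G K → G K) (hu : ∀ h ∈ H, IsLocalMaxCptAt129 v (u h)) :
    IsHeckeCosetSystem v (H.image fun h => h * u h) := by
  obtain ⟨hcard, hmem, hne⟩ := hH
  have hinj : Set.InjOn (fun h => h * u h) (H : Set (G K)) := by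
    intro h hh h' hh' e
    by_contra hcon
    apply hne h hh h' hh' hcon
    have e' : h⁻¹ * h' = u h * (u h')⁻¹ := by
      have e1 : h * u h = h' * u h' := e
      calc h⁻¹ * h' = h⁻¹ * (h' * u h') * (u h')⁻¹ := by group
        _ = h⁻¹ * (h * u h) * (u h')⁻¹ := by rw [e1]
        _ = u h * (u h')⁻¹ := by group
    rw [e']
    exact isIntegralAt_mul972 (hu h hh).2.1 (hu h' hh').2.2
  refine ⟨?_, ?_, ?_⟩
  · rw [Finset.card_image_of_injOn hinj, hcard]
  · intro g hg
    obtain ⟨h, hh, rfl⟩ := Finset.mem_image.mp hg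
    obtain ⟨h1, h2, h3⟩ := hmem h hh
    refine ⟨isLocalAtFin_mul129 h1 (hu h hh).1, isIntegralAt_mul972 h2 (hu h hh).2.1, ?_⟩
    rw [finComp_mul972, Matrix.det_mul, map_mul, valued_det_maxCpt972 (hu h hh), mul_one, h3]
  · intro g hg g' hg' hgg' hint
    obtain ⟨h, hh, rfl⟩ := Finset.mem_image.mp hg
    obtain ⟨h', hh', rfl⟩ := Finset.mem_image.mp hg'
    have hh_ne : h ≠ h' := fun e' => hgg' (by rw [e'])
    apply hne h hh h' hh' hh_ne
    have e : h⁻¹ * h' = u h * ((h * u h)⁻¹ * (h' * u h')) * (u h')⁻¹ := by group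
    rw [e]
    exact isIntegralAt_mul972 (isIntegralAt_mul972 (hu h hh).2.1 hint) (hu h' hh').2.2

/-- **Symmetric Hecke coset systems exist**: `k₁ d k₂ ↦ k₁ d k₁ᵀ`. -/
theorem exists_sym972 {H : Finset (G K)} (hH : IsHeckeCosetSystem v H) :
    ∃ S : Finset (G K), IsHeckeCosetSystem v S ∧
      ∀ h ∈ S, tr972 (finCompHom129 v h) = finCompHom129 v h := by
  classical
  have key : ∀ h : G K, ∃ u : G K, IsLocalMaxCptAt129 v u ∧
      tr972 (finCompHom129 v (h * u)) = finCompHom129 v (h * u) := by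
    intro h
    obtain ⟨k₁, k₂, a, b, ha, hb, hk₁, hk₂, -, hx⟩ :=
      cartan129 (v.adicCompletionIntegers K) (finCompHom129 v h)
    refine ⟨locFin129 v (k₂⁻¹ * tr972 k₁),
      isLocalMaxCptAt_loc972 (isMaxCpt129_mul (isMaxCpt129_inv hk₂) (isMaxCpt129_tr972 hk₁)), ?_⟩
    have e : finCompHom129 v (h * locFin129 v (k₂⁻¹ * tr972 k₁))
        = k₁ * diag129 a b ha hb * tr972 k₁ := by
      rw [map_mul, finCompHom129_locFin129, hx]
      group
    rw [e, tr972_mul, tr972_mul, tr972_tr972, tr972_diag129, mul_assoc]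
  choose u hu hsym using key
  refine ⟨H.image fun h => h * u h, isHeckeCosetSystem_right972 hH u (fun h _ => hu h), ?_⟩
  intro g hg
  obtain ⟨h, -, rfl⟩ := Finset.mem_image.mp hg
  exact hsym h

/-! ## 4. The identity for a symmetric coset system -/

/-- `y ↦ ∑_{h ∈ H} f (h⁻¹ y)` is bi-invariant under `GL₂(𝒪_v)`. -/
theorem biInv_leftSum972 {H : Finset (G K)} (hH : IsHeckeCosetSystem v H) {f : G K → ℂ}
    (hf : BiInv972 v f) : BiInv972 v (fun y => ∑ h ∈ H, f (h⁻¹ * y)) := by
  classical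
  refine ⟨fun u hu g => ?_, fun u hu g => ?_⟩
  · refine Finset.sum_congr rfl fun h _ => ?_
    rw [← mul_assoc, hf.1 u hu]
  · have hθ : ∀ w : G K, IsLocalMaxCptAt129 v w → ∀ a : G K,
        (fun a => f (a⁻¹ * g)) (a * w) = (fun a => f (a⁻¹ * g)) a := by
      intro w hw a
      show f ((a * w)⁻¹ * g) = f (a⁻¹ * g)
      rw [mul_inv_rev, mul_assoc, hf.2 _ (isLocalMaxCptAt_inv972 hw)]
    have h1 := heckeSum_indep129 (isHeckeCosetSystem_left972 hH (isLocalMaxCptAt_inv972 hu)) hH
      (fun a => f (a⁻¹ * g)) hθ 1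
    rw [Finset.sum_image (fun a _ b _ e => mul_right_injective _ e)] at h1
    simp only [one_mul] at h1
    show ∑ h ∈ H, f (h⁻¹ * (u * g)) = ∑ h ∈ H, f (h⁻¹ * g)
    rw [← h1]
    refine Finset.sum_congr rfl fun h _ => ?_
    congr 1
    group

/-- **The identity of Gelfand's trick** for a coset system of symmetric elements. -/
theorem sym_sum972 {S : Finset (G K)} (hS : IsHeckeCosetSystem v S)
    (hsym : ∀ h ∈ S, tr972 (finCompHom129 v h) = finCompHom129 v h) {f : G K → ℂ}
    (hf : BiInv972 v f) (y : G K) :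
    ∑ h ∈ S, f (y * h⁻¹) = ∑ h ∈ S, f (h⁻¹ * y) := by
  obtain ⟨x, y', hy, ht⟩ : ∃ (x : GL (Fin 2) (v.adicCompletion K)) (y' : G K),
      y = locFin129 v x * y' ∧ TrivAtFin v y' :=
    ⟨finCompHom129 v y, (locFin129 v (finCompHom129 v y))⁻¹ * y, by group,
      trivAtFin_quot972 y⟩
  have h1 : ∀ h ∈ S, f (y * h⁻¹) = f (h⁻¹ * (locFin129 v (tr972 x) * y')) := by
    intro h hh
    obtain ⟨s, hs⟩ : ∃ s : GL (Fin 2) (v.adicCompletion K), h = locFin129 v s :=
      ⟨_, eq_locFin129_of_isLocalAtFin (hS.2.1 h hh).1⟩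
    have hss : tr972 s = s := by
      have := hsym h hh
      rwa [hs, finCompHom129_locFin129] at this
    have hc : y' * (locFin129 v s)⁻¹ = (locFin129 v s)⁻¹ * y' :=
      (comm_local_triv972 (isLocalAtFin_inv129 (isLocalAtFin_locFin129 v s)) ht).symm
    calc f (y * h⁻¹) = f (locFin129 v x * y' * (locFin129 v s)⁻¹) := by rw [hy, hs]
      _ = f (locFin129 v (x * s⁻¹) * y') := by
          rw [mul_assoc, hc, ← mul_assoc, map_mul, map_inv]
      _ = f (locFin129 v (tr972 (x * s⁻¹)) * y') := (tau_inv972 hf _ ht).symm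
      _ = f (locFin129 v (s⁻¹ * tr972 x) * y') := by rw [tr972_mul, tr972_inv, hss]
      _ = f (h⁻¹ * (locFin129 v (tr972 x) * y')) := by
          rw [map_mul, map_inv, ← hs, mul_assoc]
  rw [Finset.sum_congr rfl h1]
  have h2 : ∑ h ∈ S, f (h⁻¹ * (locFin129 v (tr972 x) * y'))
      = ∑ h ∈ S, f (h⁻¹ * (locFin129 v x * y')) :=
    tau_inv972 (biInv_leftSum972 hS hf) x ht
  rw [h2, ← hy]

end Adelic

/-! ## 5. The commutation -/

section Main

variable {K : Type} [Field K] [NumberField K] {v : HeightOneSpectrum (𝓞 K)}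
variable [MeasurableSpace (G K)] [BorelSpace (G K)]

/-- (continuous) `×` (continuous with compact support) is integrable. -/
theorem integrable_mul972 (μ : Measure (G K)) [IsFiniteMeasureOnCompacts μ] {a b : G K → ℂ}
    (ha : Continuous a) (hb : Continuous b) (hc : HasCompactSupport b) :
    Integrable (fun y => a y * b y) μ :=
  (ha.mul hb).integrable_of_hasCompactSupport (hc.mul_left (f := a))

/-- The convolution `x ↦ ∫ φ (x y) f(y) dμ(y)` is right invariant under `u` when `f` is left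
invariant under `u⁻¹` (no integrability needed). -/
theorem conv_rightInv972 (μ : Measure (G K)) [μ.IsMulLeftInvariant] {f φ : G K → ℂ} {u : G K}
    (hf : ∀ g : G K, f (u⁻¹ * g) = f g) (x : G K) :
    ∫ y, φ (x * u * y) * f y ∂μ = ∫ y, φ (x * y) * f y ∂μ := by
  have := integral_mul_left_eq_self (μ := μ) (fun y => φ (x * y) * f (u⁻¹ * y)) u
  calc ∫ y, φ (x * u * y) * f y ∂μ
      = ∫ y, φ (x * (u * y)) * f (u⁻¹ * (u * y)) ∂μ := by
        congr 1
        funext y
        rw [mul_assoc x u y, inv_mul_cancel_left]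
    _ = ∫ y, φ (x * y) * f (u⁻¹ * y) ∂μ := this
    _ = ∫ y, φ (x * y) * f y ∂μ := by
        congr 1
        funext y
        rw [hf]

/-- **GELFAND'S TRICK at `v`**: `R(f) ∘ T_H = T_H ∘ R(f)` for a symmetric coset system. -/
theorem conv_hecke_comm_sym972 {S : Finset (G K)} (hS : IsHeckeCosetSystem v S)
    (hsym : ∀ h ∈ S, tr972 (finCompHom129 v h) = finCompHom129 v h)
    (μ : Measure (G K)) [IsFiniteMeasureOnCompacts μ] [μ.IsMulLeftInvariant]
    [μ.IsMulRightInvariant] {f φ : G K → ℂ} (hφc : Continuous φ) (hfc : Continuous f)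
    (hfs : HasCompactSupport f) (hf : BiInv972 v f) (x : G K) :
    ∫ y, (∑ h ∈ S, φ (x * y * h)) * f y ∂μ = ∑ h ∈ S, ∫ y, φ (x * h * y) * f y ∂μ := by
  have hφx : Continuous fun y => φ (x * y) := hφc.comp (continuous_const.mul continuous_id)
  have hL : ∫ y, (∑ h ∈ S, φ (x * y * h)) * f y ∂μ
      = ∫ y, φ (x * y) * ∑ h ∈ S, f (y * h⁻¹) ∂μ := by
    have i1 : ∀ h ∈ S, Integrable (fun y => φ (x * y * h) * f y) μ := fun h _ =>
      integrable_mul972 μ
        (hφc.comp ((continuous_const.mul continuous_id).mul continuous_const)) hfc hfs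
    have i2 : ∀ h ∈ S, Integrable (fun y => φ (x * y) * f (y * h⁻¹)) μ := fun h _ =>
      integrable_mul972 μ hφx (hfc.comp (continuous_id.mul continuous_const))
        (hfs.comp_homeomorph (Homeomorph.mulRight h⁻¹))
    simp only [Finset.sum_mul, Finset.mul_sum]
    rw [integral_finsetSum _ i1, integral_finsetSum _ i2]
    refine Finset.sum_congr rfl fun h _ => ?_
    have := integral_mul_right_eq_self (μ := μ) (fun y => φ (x * y) * f (y * h⁻¹)) h
    rw [← this]
    congr 1
    funext y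
    rw [mul_assoc x y h, mul_inv_cancel_right]
  have hR : ∑ h ∈ S, ∫ y, φ (x * h * y) * f y ∂μ
      = ∫ y, φ (x * y) * ∑ h ∈ S, f (h⁻¹ * y) ∂μ := by
    have i2 : ∀ h ∈ S, Integrable (fun y => φ (x * y) * f (h⁻¹ * y)) μ := fun h _ =>
      integrable_mul972 μ hφx (hfc.comp (continuous_const.mul continuous_id))
        (hfs.comp_homeomorph (Homeomorph.mulLeft h⁻¹))
    simp only [Finset.mul_sum]
    rw [integral_finsetSum _ i2]
    refine Finset.sum_congr rfl fun h _ => ?_
    have := integral_mul_left_eq_self (μ := μ) (fun y => φ (x * y) * f (h⁻¹ * y)) h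
    rw [← this]
    congr 1
    funext y
    rw [mul_assoc x h y, inv_mul_cancel_left]
  rw [hL, hR]
  congr 1
  funext y
  rw [sym_sum972 hS hsym hf y]

/-- **GELFAND'S TRICK at `v`**: `R(f) ∘ T_H = T_H ∘ R(f)` for EVERY Hecke coset system `H` at `v`,
`φ` continuous and right invariant under `GL₂(𝒪_v)`, `f` continuous with compact support and
bi-invariant under `GL₂(𝒪_v)`, `μ` left and right invariant and finite on compact sets. -/
theorem conv_hecke_comm972 {H : Finset (G K)} (hH : IsHeckeCosetSystem v H)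
    (μ : Measure (G K)) [IsFiniteMeasureOnCompacts μ] [μ.IsMulLeftInvariant]
    [μ.IsMulRightInvariant] {f φ : G K → ℂ} (hφc : Continuous φ)
    (hφ : ∀ u : G K, IsLocalMaxCptAt129 v u → ∀ g : G K, φ (g * u) = φ g)
    (hfc : Continuous f) (hfs : HasCompactSupport f) (hf : BiInv972 v f) (x : G K) :
    ∫ y, (∑ h ∈ H, φ (x * y * h)) * f y ∂μ = ∑ h ∈ H, ∫ y, φ (x * h * y) * f y ∂μ := by
  obtain ⟨S, hS, hsym⟩ := exists_sym972 hH
  have e1 : ∀ y : G K, ∑ h ∈ H, φ (x * y * h) = ∑ h ∈ S, φ (x * y * h) := fun y =>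
    heckeSum_indep129 hH hS φ hφ (x * y)
  have hψ : ∀ u : G K, IsLocalMaxCptAt129 v u → ∀ g : G K,
      (fun g => ∫ y, φ (g * y) * f y ∂μ) (g * u) = (fun g => ∫ y, φ (g * y) * f y ∂μ) g :=
    fun u hu g => conv_rightInv972 μ (fun g' => hf.2 _ (isLocalMaxCptAt_inv972 hu) g') g
  have e2 := heckeSum_indep129 hH hS (fun g => ∫ y, φ (g * y) * f y ∂μ) hψ x
  simp only [e1]
  rw [e2]
  exact conv_hecke_comm_sym972 hS hsym μ hφc hfc hfs hf x

end Main

end Fermat.Agent.LT.H972

end
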